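import Mathlib
import Fermat.Agent.S25.H71.InvDom

/-!
# S25 / ALGCHARTS, COVER sub-leaf COV1 (helper430): the commutative algebra

Invertible modules at a maximal ideal:

* `mem_smul_top_iff_dual` : for a finite projective module, `n ∈ I • ⊤ ↔ ∀ ℓ, ℓ n ∈ I`;
* `mem_prod_smul_top_iff` : CRT, `n ∈ (∏ i, J i) • ⊤ ↔ ∀ i, n ∈ J i • ⊤` for pairwise coprime `J i`;
* `exists_sub_smul_mem_of_notMem` : `N / P N` is spanned by any `b ∉ P N` (`P` maximal,
  `N` invertible);
* `smul_top_ne_top` : `P N ≠ N` for a proper ideal `P`;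
* `span_sup_smul_top_eq_top` : if `b ∉ P N` for every maximal `P ∋ y` then `N = R b + y N`.
-/

set_option autoImplicit false

namespace Fermat.Agent.S25.H430

open Module

section Generic

variable {R : Type*} [CommRing R] {N : Type*} [AddCommGroup N] [Module R N]

/-- Linear forms map `I • ⊤` into `I`. -/
theorem dual_mem_of_mem_smul_top (I : Ideal R) {n : N}
    (hn : n ∈ I • (⊤ : Submodule R N)) (ℓ : Module.Dual R N) : ℓ n ∈ I := by
  refine Submodule.smul_induction_on hn ?_ ?_
  · intro r hr n _
    rw [map_smul, smul_eq_mul]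
    exact I.mul_mem_right _ hr
  · intro a b ha hb
    rw [map_add]
    exact I.add_mem ha hb

/-- For a finite projective module, membership in `I • ⊤` is detected by linear forms. -/
theorem mem_smul_top_of_dual_mem [Module.Finite R N] [Module.Projective R N] (I : Ideal R)
    {n : N} (h : ∀ ℓ : Module.Dual R N, ℓ n ∈ I) : n ∈ I • (⊤ : Submodule R N) := by
  classical
  obtain ⟨m, f, g, -, -, hfg⟩ := Module.Finite.exists_comp_eq_id_of_projective R N
  have h1 : n = ∑ j : Fin m, (g n j) • f (Pi.single j 1) := by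
    have h2 : f (g n) = n := by
      have := LinearMap.congr_fun hfg n
      simpa using this
    conv_lhs => rw [← h2]
    have h3 : g n = ∑ j : Fin m, (g n j) • (Pi.single j (1 : R) : Fin m → R) := by
      ext i
      simp [Finset.sum_apply, Pi.single_apply]
    conv_lhs => rw [h3]
    rw [map_sum]
    refine Finset.sum_congr rfl fun j _ => ?_
    rw [map_smul]
  rw [h1]
  refine Submodule.sum_mem _ fun j _ => ?_
  refine Submodule.smul_mem_smul ?_ Submodule.mem_top
  exact h ((LinearMap.proj j).comp g)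

theorem mem_smul_top_iff_dual [Module.Finite R N] [Module.Projective R N] (I : Ideal R)
    {n : N} : n ∈ I • (⊤ : Submodule R N) ↔ ∀ ℓ : Module.Dual R N, ℓ n ∈ I :=
  ⟨fun h ℓ => dual_mem_of_mem_smul_top I h ℓ, mem_smul_top_of_dual_mem I⟩

/-- CRT for a finite projective module and pairwise coprime ideals. -/
theorem mem_prod_smul_top_iff [Module.Finite R N] [Module.Projective R N] {ι : Type*}
    [Fintype ι] (J : ι → Ideal R) (hJ : Pairwise (Function.onFun IsCoprime J)) {n : N} :
    n ∈ (∏ i, J i) • (⊤ : Submodule R N) ↔ ∀ i, n ∈ J i • (⊤ : Submodule R N) := by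
  classical
  have hprod : ∏ i, J i = ⨅ i, J i := by
    have := Ideal.prod_eq_iInf_of_pairwise_isCoprime (s := Finset.univ) (J := J)
      (fun i _ j _ hij => hJ hij)
    simpa using this
  constructor
  · intro h i
    rw [mem_smul_top_iff_dual] at h ⊢
    intro ℓ
    have := h ℓ
    rw [hprod, Ideal.mem_iInf] at this
    exact this i
  · intro h
    rw [mem_smul_top_iff_dual]
    intro ℓ
    rw [hprod, Ideal.mem_iInf]
    intro i
    exact dual_mem_of_mem_smul_top (J i) (h i) ℓ

variable [Module.Invertible R N]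

/-- `N / P N` is spanned by the class of any `b ∉ P N`. -/
theorem exists_sub_smul_mem_of_notMem (P : Ideal R) [hP : P.IsMaximal] {b : N}
    (hb : b ∉ P • (⊤ : Submodule R N)) (n : N) :
    ∃ r : R, n - r • b ∈ P • (⊤ : Submodule R N) := by
  obtain ⟨ℓ, hℓ⟩ : ∃ ℓ : Module.Dual R N, ℓ b ∉ P := by
    by_contra hcon
    push Not at hcon
    exact hb (mem_smul_top_of_dual_mem P hcon)
  obtain ⟨u, i, hi, hu⟩ := hP.exists_inv hℓ
  refine ⟨u * ℓ n, ?_⟩
  have h2 : (u * ℓ b) • n + i • n = n := by rw [← add_smul, hu, one_smul]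
  have h1 : n - (u * ℓ n) • b = i • n := by
    rw [mul_smul, H71.dual_smul_comm ℓ n b, ← mul_smul, sub_eq_iff_eq_add, add_comm]
    exact h2.symm
  rw [h1]
  exact Submodule.smul_mem_smul hi Submodule.mem_top

/-- `P N ≠ N` for a proper ideal `P` and an invertible module `N`. -/
theorem smul_top_ne_top (P : Ideal R) (hP : P ≠ ⊤) : P • (⊤ : Submodule R N) ≠ ⊤ := by
  intro h
  obtain ⟨t, ht⟩ := (Module.Invertible.bijective : Function.Bijective (contractLeft R N)).2 1
  have key : ∀ t : TensorProduct R (Module.Dual R N) N, contractLeft R N t ∈ P := by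
    intro t
    induction t using TensorProduct.induction_on with
    | zero => rw [map_zero]; exact P.zero_mem
    | tmul ℓ n =>
      rw [contractLeft_apply]
      exact dual_mem_of_mem_smul_top P (by rw [h]; exact Submodule.mem_top) ℓ
    | add a b ha hb => rw [map_add]; exact P.add_mem ha hb
  apply hP
  rw [Ideal.eq_top_iff_one, ← ht]
  exact key t

/-- There is an element outside `P N`. -/
theorem exists_notMem_smul_top (P : Ideal R) (hP : P ≠ ⊤) :
    ∃ b : N, b ∉ P • (⊤ : Submodule R N) := by
  by_contra hcon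
  push Not at hcon
  exact smul_top_ne_top P hP (eq_top_iff.2 fun b _ => hcon b)

/-- If `b` vanishes at no maximal ideal containing `y`, then `b` generates `N` modulo `y`. -/
theorem span_sup_smul_top_eq_top (y : R) {b : N}
    (hb : ∀ P : Ideal R, P.IsMaximal → y ∈ P → b ∉ P • (⊤ : Submodule R N)) :
    Submodule.span R {b} ⊔ Ideal.span {y} • (⊤ : Submodule R N) = ⊤ := by
  set L : Submodule R N := Submodule.span R {b} ⊔ Ideal.span {y} • (⊤ : Submodule R N) with hL
  by_contra hne
  have hnt : Nontrivial (N ⧸ L) := Submodule.Quotient.nontrivial_iff.2 hne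
  have hann : Module.annihilator R (N ⧸ L) ≠ ⊤ := by
    intro h
    rw [Ideal.eq_top_iff_one, Module.mem_annihilator] at h
    obtain ⟨a, ha⟩ := exists_ne (0 : N ⧸ L)
    exact ha (by simpa using h a)
  obtain ⟨P, hPmax, hPle⟩ := Ideal.exists_le_maximal _ hann
  have hyann : y ∈ Module.annihilator R (N ⧸ L) := by
    rw [Module.mem_annihilator]
    intro a
    obtain ⟨n, rfl⟩ := Submodule.Quotient.mk_surjective L a
    rw [← Submodule.Quotient.mk_smul, Submodule.Quotient.mk_eq_zero]
    exact Submodule.mem_sup_right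
      (Submodule.smul_mem_smul (Ideal.mem_span_singleton_self y) Submodule.mem_top)
  have hbP := hb P hPmax (hPle hyann)
  have htop : (⊤ : Submodule R (N ⧸ L)) ≤ P • (⊤ : Submodule R (N ⧸ L)) := by
    intro a _
    obtain ⟨n, rfl⟩ := Submodule.Quotient.mk_surjective L a
    obtain ⟨r, hr⟩ := exists_sub_smul_mem_of_notMem P hbP n
    have h1 : (Submodule.Quotient.mk n : N ⧸ L) = Submodule.Quotient.mk (n - r • b) := by
      rw [Submodule.Quotient.eq]
      have : n - (n - r • b) = r • b := by abel
      rw [this]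
      exact Submodule.mem_sup_left (Submodule.smul_mem _ _ (Submodule.mem_span_singleton_self b))
    rw [h1]
    have h2 : (P • (⊤ : Submodule R N)).map L.mkQ = P • (⊤ : Submodule R (N ⧸ L)) := by
      rw [Submodule.map_smul'', Submodule.map_top, Submodule.range_mkQ]
    rw [← h2]
    exact Submodule.mem_map_of_mem hr
  obtain ⟨r, hr1, hr0⟩ := Submodule.exists_sub_one_mem_and_smul_eq_zero_of_fg_of_le_smul P
    (⊤ : Submodule R (N ⧸ L)) Module.Finite.fg_top htop
  have hrann : r ∈ Module.annihilator R (N ⧸ L) := by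
    rw [Module.mem_annihilator]
    exact fun a => hr0 a Submodule.mem_top
  have h1 : (1 : R) ∈ P := by
    have : (1 : R) = r - (r - 1) := by ring
    rw [this]
    exact P.sub_mem (hPle hrann) hr1
  exact hPmax.ne_top ((Ideal.eq_top_iff_one P).2 h1)

/-- Consequence: every `c` is congruent to a multiple of `b` modulo `y N`. -/
theorem exists_sub_smul_mem_span_smul_top (y : R) {b : N}
    (hb : ∀ P : Ideal R, P.IsMaximal → y ∈ P → b ∉ P • (⊤ : Submodule R N)) (c : N) :
    ∃ r : R, c - r • b ∈ Ideal.span {y} • (⊤ : Submodule R N) := by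
  have h : c ∈ Submodule.span R {b} ⊔ Ideal.span {y} • (⊤ : Submodule R N) := by
    rw [span_sup_smul_top_eq_top y hb]
    exact Submodule.mem_top
  obtain ⟨u, hu, v, hv, huv⟩ := Submodule.mem_sup.1 h
  obtain ⟨r, rfl⟩ := Submodule.mem_span_singleton.1 hu
  refine ⟨r, ?_⟩
  have : c - r • b = v := by rw [← huv]; abel
  rw [this]
  exact hv

end Generic

section Independent

variable {K : Type*} [Field K] {V : Type*} [AddCommGroup V] [Module K V]
  [FiniteDimensional K V]

/-- If `m` subspaces of codimension `≤ 1` cut out a subspace of codimension `m`, the conditions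
are independent: each subspace is proper and `V → ∏ i, V ⧸ Z i` is onto. -/
theorem exists_forall_sub_mem_of_finrank {m : ℕ} (Z : Fin m → Submodule K V)
    (hZ : ∀ i, finrank K (V ⧸ Z i) ≤ 1) (hdim : finrank K ↥(⨅ i, Z i) + m = finrank K V) :
    (∀ i, Z i ≠ ⊤) ∧ ∀ v : Fin m → V, ∃ w : V, ∀ i, w - v i ∈ Z i := by
  classical
  set Φ : V →ₗ[K] (∀ i : Fin m, V ⧸ Z i) := LinearMap.pi fun i => (Z i).mkQ with hΦ
  have hker : LinearMap.ker Φ = ⨅ i, Z i := by
    rw [hΦ, LinearMap.ker_pi]
    simp only [Submodule.ker_mkQ]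
  have h1 := LinearMap.finrank_range_add_finrank_ker Φ
  rw [hker] at h1
  have h2 : finrank K (∀ i : Fin m, V ⧸ Z i) = ∑ i, finrank K (V ⧸ Z i) :=
    Module.finrank_pi_fintype K
  have h3 : finrank K (LinearMap.range Φ) ≤ finrank K (∀ i : Fin m, V ⧸ Z i) :=
    Submodule.finrank_le _
  have h4 : ∑ i, finrank K (V ⧸ Z i) ≤ m := by
    calc ∑ i, finrank K (V ⧸ Z i) ≤ ∑ _i : Fin m, 1 := Finset.sum_le_sum fun i _ => hZ i
      _ = m := by simp
  have hsurj : LinearMap.range Φ = ⊤ := Submodule.eq_top_of_finrank_eq (by omega)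
  refine ⟨fun i hi => ?_, fun v => ?_⟩
  · have h5 := (Z i).finrank_quotient_add_finrank
    have h6 : finrank K (Z i) = finrank K V := by
      rw [hi]
      exact finrank_top K V
    have h7 : ∑ j, finrank K (V ⧸ Z j) < ∑ _j : Fin m, 1 :=
      Finset.sum_lt_sum (fun j _ => hZ j) ⟨i, Finset.mem_univ i, by omega⟩
    simp only [Finset.sum_const, Finset.card_univ, Fintype.card_fin, smul_eq_mul,
      mul_one] at h7
    omega
  · obtain ⟨w, hw⟩ := LinearMap.range_eq_top.1 hsurj (fun i => (Z i).mkQ (v i))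
    refine ⟨w, fun i => ?_⟩
    have h5 := congrFun hw i
    rw [hΦ, LinearMap.pi_apply, Submodule.mkQ_apply, Submodule.mkQ_apply,
      Submodule.Quotient.eq] at h5
    exact h5

end Independent

end Fermat.Agent.S25.H430
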