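import Fermat.Agent.S25.H11.ACDefs
import Fermat.Agent.S25.H250.DegSec
import Fermat.Agent.S25.H190.ACDeg3
import Fermat.Agent.S25.H207.ChartCor
import Fermat.Agent.S25.H687.Points
import Fermat.Agent.S25.H251.PointSelection
import Fermat.Agent.S25.H430.Cov1Alg

/-!
# S25 / ALGCHARTS, COVER sub-leaf COV1 (helper430): field points

For a curve chart over an algebraically closed field `k`, a field `K ⊇ k` (not necessarily
algebraically closed) and a gluing datum `G` over `K` of degree `0`, there are a twist `n`,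
distinct `k`-points `q 1, …, q m` of `Spec B₀` with `m + g = n d`, such that `P2 x y n q G`:
`H¹(G(nE₀ - Σ q)) = 0` and `H⁰(G(nE₀ - Σ q))` is a line spanned by a section which does not vanish
at any point of `E₀ = {y = 0}`.

Main statement: `exists_P2`.
-/

set_option autoImplicit false
set_option linter.style.haveILetI false
set_option linter.unusedSectionVars false

universe u

open scoped TensorProduct

namespace Fermat.Agent.S25.H430

open Fermat.Agent.S25 Fermat.Agent.S25.H11 Module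

variable {k : Type u} [Field k]
  {B₀ B₁ B₀₁ : Type u} [CommRing B₀] [CommRing B₁] [CommRing B₀₁]
  [Algebra k B₀] [Algebra k B₁] [Algebra k B₀₁] [Algebra B₀ B₀₁] [Algebra B₁ B₀₁]
  [IsScalarTower k B₀ B₀₁] [IsScalarTower k B₁ B₀₁]
  {x : B₀} {y : B₁} {e : B₁ →ₐ[k] k}

section Ring

variable {A : Type u} [CommRing A] [Algebra k A]

/-- `(1 ⊗ x) ^ (n + 1) • ((1 ⊗ y) • z) = (1 ⊗ x) ^ n • z` on `N₀₁`. -/
theorem xElt_pow_succ_smul_yElt_smul (hxy : algebraMap B₀ B₀₁ x * algebraMap B₁ B₀₁ y = 1)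
    (G : CurveGD k B₀ B₁ B₀₁ A) (n : ℕ) (z : G.N₀₁) :
    xElt k B₀₁ A x ^ (n + 1) • (yElt k A y • z) = xElt k B₀₁ A x ^ n • z := by
  rw [← algebraMap_smul (A ⊗[k] B₀₁) (yElt k A y) z, ← mul_smul]
  congr 1
  rw [yElt, H250.algebraMap_tensor_tmul, pow_succ, mul_assoc, xElt,
    Algebra.TensorProduct.tmul_mul_tmul, one_mul, hxy, ← Algebra.TensorProduct.one_def, mul_one]

/-- `1 ⊗ x` is a unit of `A ⊗ B₀₁`. -/
theorem isUnit_xElt (hxy : algebraMap B₀ B₀₁ x * algebraMap B₁ B₀₁ y = 1) :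
    IsUnit (xElt k B₀₁ A x) := by
  refine IsUnit.of_mul_eq_one ((1 : A) ⊗ₜ[k] algebraMap B₁ B₀₁ y) ?_
  rw [xElt, Algebra.TensorProduct.tmul_mul_tmul, one_mul, hxy, ← Algebra.TensorProduct.one_def]

/-- Step C: if `H¹(G(nE₀)) = 0` then `H⁰(G((n+1)E₀)) → N₁ / y N₁` is onto. -/
theorem exists_sec_succ (hxy : algebraMap B₀ B₀₁ x * algebraMap B₁ B₀₁ y = 1)
    (G : CurveGD k B₀ B₁ B₀₁ A) (n : ℕ) (h0 : P0 x n G) (b : G.N₁) :
    ∃ s ∈ sec x (n + 1) G,
      s.2 - b ∈ (Ideal.span {yElt k A y} • ⊤ : Submodule (A ⊗[k] B₁) G.N₁) := by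
  obtain ⟨⟨a, b₁⟩, h⟩ := h0 (xElt k B₀₁ A x ^ (n + 1) • G.r₁ b)
  rw [tcech_apply] at h
  refine ⟨(a, b + yElt k A y • b₁), ?_, ?_⟩
  · rw [mem_sec]
    show G.r₀ a = xElt k B₀₁ A x ^ (n + 1) • G.r₁ (b + yElt k A y • b₁)
    rw [map_add, map_smul, smul_add, xElt_pow_succ_smul_yElt_smul hxy, ← h]
    abel
  · show b + yElt k A y • b₁ - b ∈ _
    rw [add_sub_cancel_left]
    exact Submodule.smul_mem_smul (Ideal.mem_span_singleton_self _) Submodule.mem_top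

/-- A section of `G(nE₀)` is determined by its first component. -/
theorem eq_zero_of_fst_eq_zero (hC : IsCurveChart k B₀ B₁ B₀₁ x y e) (G : CurveGD k B₀ B₁ B₀₁ A)
    (n : ℕ) {s : G.N₀ × G.N₁} (hs : s ∈ sec x n G) (h1 : s.1 = 0) : s = 0 := by
  rw [mem_sec, h1, map_zero] at hs
  have h2 : G.r₁ s.2 = 0 :=
    (((isUnit_xElt (A := A) hC.mul_eq_one).pow n).smul_eq_zero).1 hs.symm
  have h3 : s.2 = 0 := by
    apply H250.r1_injective hC G
    rw [map_zero]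
    exact h2
  exact Prod.ext h1 h3

end Ring

section Field

variable {K : Type u} [Field K] [Algebra k K]

/-- The kernel of the `K`-point `ptHom q K` is a maximal ideal. -/
theorem ker_ptHom_isMaximal (q : B₀ →ₐ[k] k) : (RingHom.ker (ptHom q K)).IsMaximal :=
  RingHom.ker_isMaximal_of_surjective _
    (fun c => ⟨algebraMap K (K ⊗[k] B₀) c, (ptHom q K).commutes c⟩)

/-- Distinct `k`-points have distinct ideals. -/
theorem ker_ptHom_injective :
    Function.Injective (fun q : B₀ →ₐ[k] k => RingHom.ker (ptHom q K)) := by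
  intro q q' h
  ext b
  have h1 : (1 : K) ⊗ₜ[k] b - algebraMap k K (q b) ⊗ₜ[k] (1 : B₀) ∈ RingHom.ker (ptHom q K) := by
    rw [RingHom.mem_ker, map_sub, ptHom_tmul, ptHom_tmul, map_one, map_one, one_mul, mul_one,
      sub_self]
  have h' : RingHom.ker (ptHom q K) = RingHom.ker (ptHom q' K) := h
  rw [h', RingHom.mem_ker, map_sub, ptHom_tmul, ptHom_tmul, map_one, map_one, one_mul, mul_one,
    sub_eq_zero] at h1
  exact ((algebraMap k K).injective h1).symm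

/-- `N₀ / P_q N₀` is spanned over `K` by the class of any `b ∉ P_q N₀`. -/
theorem exists_sub_smul_mem_ker_ptHom (G : CurveGD k B₀ B₁ B₀₁ K) (q : B₀ →ₐ[k] k) {b : G.N₀}
    (hb : b ∉ RingHom.ker (ptHom q K) • (⊤ : Submodule (K ⊗[k] B₀) G.N₀)) (n : G.N₀) :
    ∃ c : K, n - c • b ∈ RingHom.ker (ptHom q K) • (⊤ : Submodule (K ⊗[k] B₀) G.N₀) := by
  haveI := G.invertible₀
  haveI := ker_ptHom_isMaximal (K := K) q
  obtain ⟨r, hr⟩ := exists_sub_smul_mem_of_notMem _ hb n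
  refine ⟨ptHom q K r, ?_⟩
  have h1 : r - algebraMap K (K ⊗[k] B₀) (ptHom q K r) ∈ RingHom.ker (ptHom q K) := by
    rw [RingHom.mem_ker, map_sub, AlgHom.commutes, Algebra.algebraMap_self, RingHom.id_apply,
      sub_self]
  have h2 : n - ptHom q K r • b =
      (n - r • b) + (r - algebraMap K (K ⊗[k] B₀) (ptHom q K r)) • b := by
    rw [sub_smul, algebraMap_smul]
    abel
  rw [h2]
  exact Submodule.add_mem _ hr (Submodule.smul_mem_smul h1 Submodule.mem_top)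

/-- CRT: vanishing on `Σ q i` is vanishing at each `q i`, for distinct points. -/
theorem mem_vanq_iff (G : CurveGD k B₀ B₁ B₀₁ K) {m : ℕ} (q : Fin m → (B₀ →ₐ[k] k))
    (hq : Function.Injective q) (a : G.N₀) :
    a ∈ vanq q G ↔
      ∀ i, a ∈ RingHom.ker (ptHom (q i) K) • (⊤ : Submodule (K ⊗[k] B₀) G.N₀) := by
  haveI := G.invertible₀
  refine mem_prod_smul_top_iff (fun i => RingHom.ker (ptHom (q i) K)) ?_
  intro i j hij
  refine Ideal.isCoprime_iff_sup_eq.2 (Ideal.IsMaximal.coprime_of_ne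
    (ker_ptHom_isMaximal (q i)) (ker_ptHom_isMaximal (q j)) fun h => hij ?_)
  exact hq (ker_ptHom_injective (K := K) h)

/-- Sections of `G(nE₀)` vanishing at the `k`-point `q`. -/
def secZ (x : B₀) (n : ℕ) (G : CurveGD k B₀ B₁ B₀₁ K) (q : B₀ →ₐ[k] k) :
    Submodule K (sec x n G) :=
  ((RingHom.ker (ptHom q K) • (⊤ : Submodule (K ⊗[k] B₀) G.N₀)).restrictScalars K).comap
    ((LinearMap.fst K G.N₀ G.N₁).comp (sec x n G).subtype)

theorem mem_secZ {n : ℕ} {G : CurveGD k B₀ B₁ B₀₁ K} {q : B₀ →ₐ[k] k} {s : sec x n G} :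
    s ∈ secZ x n G q ↔
      (s : G.N₀ × G.N₁).1 ∈ RingHom.ker (ptHom q K) • (⊤ : Submodule (K ⊗[k] B₀) G.N₀) :=
  Iff.rfl

/-- Sections of `G(nE₀)` whose second component vanishes at the maximal ideal `P`. -/
def secH (x : B₀) (n : ℕ) (G : CurveGD k B₀ B₁ B₀₁ K) (P : Ideal (K ⊗[k] B₁)) :
    Submodule K (sec x n G) :=
  ((P • (⊤ : Submodule (K ⊗[k] B₁) G.N₁)).restrictScalars K).comap
    ((LinearMap.snd K G.N₀ G.N₁).comp (sec x n G).subtype)

theorem mem_secH {n : ℕ} {G : CurveGD k B₀ B₁ B₀₁ K} {P : Ideal (K ⊗[k] B₁)} {s : sec x n G} :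
    s ∈ secH x n G P ↔ (s : G.N₀ × G.N₁).2 ∈ P • (⊤ : Submodule (K ⊗[k] B₁) G.N₁) :=
  Iff.rfl

/-- Vanishing at a point is at most one condition. -/
theorem finrank_quot_secZ_le_one (n : ℕ) (G : CurveGD k B₀ B₁ B₀₁ K) (q : B₀ →ₐ[k] k) :
    finrank K (sec x n G ⧸ secZ x n G q) ≤ 1 := by
  by_cases h : ∃ s₀ : sec x n G, s₀ ∉ secZ x n G q
  · obtain ⟨s₀, hs₀⟩ := h
    refine finrank_le_one (Submodule.Quotient.mk s₀) fun w => ?_
    obtain ⟨s, rfl⟩ := Submodule.Quotient.mk_surjective _ w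
    obtain ⟨c, hc⟩ := exists_sub_smul_mem_ker_ptHom G q hs₀ (s : G.N₀ × G.N₁).1
    refine ⟨c, ?_⟩
    rw [← Submodule.Quotient.mk_smul, Submodule.Quotient.eq, mem_secZ]
    have h1 : ((c • s₀ - s : sec x n G) : G.N₀ × G.N₁).1 =
        -((s : G.N₀ × G.N₁).1 - c • (s₀ : G.N₀ × G.N₁).1) := by
      simp
    rw [h1]
    exact Submodule.neg_mem _ hc
  · push Not at h
    refine finrank_le_one 0 fun w => ⟨0, ?_⟩
    obtain ⟨s, rfl⟩ := Submodule.Quotient.mk_surjective _ w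
    rw [zero_smul]
    exact ((Submodule.Quotient.mk_eq_zero _).2 (h s)).symm

variable [IsAlgClosed k]

/-- A nonzero section vanishes at only finitely many `k`-points. -/
theorem finite_setOf_mem_secZ (hC : IsCurveChart k B₀ B₁ B₀₁ x y e) (n : ℕ)
    (G : CurveGD k B₀ B₁ B₀₁ K) (s : sec x n G) (hs : s ≠ 0) :
    {q : B₀ →ₐ[k] k | s ∈ secZ x n G q}.Finite := by
  haveI := H207.isDedekindDomain_tensor_chart₀ hC K
  haveI := G.invertible₀
  have hs1 : (s : G.N₀ × G.N₁).1 ≠ 0 := fun h =>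
    hs (Subtype.ext (eq_zero_of_fst_eq_zero hC G n s.2 h))
  have hfin := H687.finite_zeros_of_section (B := K ⊗[k] B₀) (N := G.N₀) hs1
  refine (hfin.preimage (ker_ptHom_injective (K := K) (B₀ := B₀)).injOn).subset ?_
  intro q hq
  exact ⟨ker_ptHom_isMaximal q, hq⟩

/-- The sections vanishing at a point of `E₀` form a proper subspace. -/
theorem secH_ne_top (hC : IsCurveChart k B₀ B₁ B₀₁ x y e) (n : ℕ)
    (G : CurveGD k B₀ B₁ B₀₁ K) (h0 : P0 x n G) (P : Ideal (K ⊗[k] B₁)) (hP : P.IsMaximal)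
    (hy : yElt k K y ∈ P) : secH x (n + 1) G P ≠ ⊤ := by
  haveI := G.invertible₁
  obtain ⟨b, hb⟩ := exists_notMem_smul_top (N := G.N₁) P hP.ne_top
  obtain ⟨s, hs, hsb⟩ := exists_sec_succ hC.mul_eq_one G n h0 b
  intro htop
  have h1 : (⟨s, hs⟩ : sec x (n + 1) G) ∈ secH x (n + 1) G P := by
    rw [htop]
    exact Submodule.mem_top
  rw [mem_secH] at h1
  apply hb
  have h2 : s.2 - b ∈ P • (⊤ : Submodule (K ⊗[k] B₁) G.N₁) :=
    Submodule.smul_mono_left ((Ideal.span_singleton_le_iff_mem P).2 hy) hsb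
  have h3 : b = s.2 - (s.2 - b) := by abel
  rw [h3]
  exact Submodule.sub_mem _ h1 h2

/-- `1 ⊗ y ≠ 0` in `K ⊗ B₁`. -/
theorem yElt_ne_zero (hC : IsCurveChart k B₀ B₁ B₀₁ x y e) : yElt k K y ≠ 0 := by
  intro h
  have hinj : Function.Injective
      (Algebra.TensorProduct.includeRight : B₁ →ₐ[k] K ⊗[k] B₁) :=
    Algebra.TensorProduct.includeRight_injective (algebraMap k K).injective
  have h1 : (Algebra.TensorProduct.includeRight : B₁ →ₐ[k] K ⊗[k] B₁) y = 0 := h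
  rw [← map_zero (Algebra.TensorProduct.includeRight : B₁ →ₐ[k] K ⊗[k] B₁)] at h1
  exact H250.y_ne_zero hC (hinj h1)

/-- **COV1 (field points).**  A gluing datum of degree `0` over a field `K ⊇ k` satisfies
`P2 x y n q` for some twist `n` and some distinct `k`-points `q 1, …, q m` with
`m + g = n d`. -/
theorem exists_P2 (hC : IsCurveChart k B₀ B₁ B₀₁ x y e) (G : CurveGD k B₀ B₁ B₀₁ K)
    (hdeg : G.degree = 0) :
    ∃ (n m : ℕ) (q : Fin m → (B₀ →ₐ[k] k)), Function.Injective q ∧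
      m + finrank k (GlueDatum.unit k (k ⊗[k] B₀) (k ⊗[k] B₁) (k ⊗[k] B₀₁)).H1 =
        n * finrank k (B₁ ⧸ Ideal.span {y}) ∧ P2 x y n q G := by
  classical
  have hdpos : 0 < finrank k (B₁ ⧸ Ideal.span {y}) := H250.chartDeg_pos hC
  obtain ⟨n₀, hn₀⟩ := H190.exists_P0 hC G
  obtain ⟨n', hn'⟩ : ∃ n' : ℕ, n' =
      n₀ + finrank k (GlueDatum.unit k (k ⊗[k] B₀) (k ⊗[k] B₁) (k ⊗[k] B₀₁)).H1 := ⟨_, rfl⟩
  have h0' : P0 x n' G := hn₀ n' (by omega)
  have h0 : P0 x (n' + 1) G := hn₀ (n' + 1) (by omega)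
  obtain ⟨hfinV, hrank⟩ := H250.finrank_sec hC G hdeg (n' + 1) h0
  have hge : n' + 1 ≤ (n' + 1) * finrank k (B₁ ⧸ Ideal.span {y}) :=
    Nat.le_mul_of_pos_right _ hdpos
  have hVpos : 0 < finrank K (sec x (n' + 1) G) := by omega
  haveI : Infinite (B₀ →ₐ[k] k) := by
    haveI := hC.isDomain₀
    haveI := H207.finiteType_chart₀ hC
    exact H687.infinite_algHom k (H207.not_isField_chart₀ hC)
  haveI : IsDedekindDomain (K ⊗[k] B₁) := H207.isDedekindDomain_tensor_chart₁ hC K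
  have hfinP : {P : Ideal (K ⊗[k] B₁) | P.IsMaximal ∧ yElt k K y ∈ P}.Finite :=
    H687.finite_setOf_isMaximal_mem (yElt_ne_zero hC)
  haveI : Finite ↥{P : Ideal (K ⊗[k] B₁) | P.IsMaximal ∧ yElt k K y ∈ P} := hfinP.to_subtype
  obtain ⟨q, hqinj, hdim1, hmeet⟩ := H251.exists_points_line (K := K)
    (V := sec x (n' + 1) G) (X := B₀ →ₐ[k] k) (secZ x (n' + 1) G)
    (fun q => finrank_quot_secZ_le_one (n' + 1) G q)
    (fun s hs => finite_setOf_mem_secZ hC (n' + 1) G s hs)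
    (fun P : ↥{P : Ideal (K ⊗[k] B₁) | P.IsMaximal ∧ yElt k K y ∈ P} =>
      secH x (n' + 1) G P.1)
    (fun P => secH_ne_top hC n' G h0' P.1 P.2.1 P.2.2) hVpos
  refine ⟨n' + 1, finrank K (sec x (n' + 1) G) - 1, q, hqinj, by omega, ?_⟩
  -- independence of the conditions
  obtain ⟨hproper, hsurj⟩ := exists_forall_sub_mem_of_finrank
    (fun i => secZ x (n' + 1) G (q i))
    (fun i => finrank_quot_secZ_le_one (n' + 1) G (q i)) (by omega)
  -- the generator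
  have hWne : (⨅ i, secZ x (n' + 1) G (q i)) ≠ ⊥ := by
    intro h
    rw [h, finrank_bot] at hdim1
    exact zero_ne_one hdim1
  obtain ⟨s, hsW, hs0'⟩ := Submodule.exists_mem_ne_zero_of_ne_bot hWne
  have hs0 : (⟨s, hsW⟩ : ↥(⨅ i, secZ x (n' + 1) G (q i))) ≠ 0 := fun h =>
    hs0' (congrArg Subtype.val h)
  have hspan := (finrank_eq_one_iff_of_nonzero'
    (⟨s, hsW⟩ : ↥(⨅ i, secZ x (n' + 1) G (q i))) hs0).1 hdim1
  have hsZ : ∀ i, s ∈ secZ x (n' + 1) G (q i) := fun i => (Submodule.mem_iInf _).1 hsW i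
  refine ⟨⟨h0, fun a => ?_⟩, (s : G.N₀ × G.N₁), ⟨?_, ?_, ?_⟩⟩
  · -- P1
    have hex : ∀ i, ∃ v : sec x (n' + 1) G,
        a - (v : G.N₀ × G.N₁).1 ∈
          RingHom.ker (ptHom (q i) K) • (⊤ : Submodule (K ⊗[k] B₀) G.N₀) := by
      intro i
      have hi : ∃ s₀ : sec x (n' + 1) G, s₀ ∉ secZ x (n' + 1) G (q i) := by
        by_contra hcon
        push Not at hcon
        exact hproper i (eq_top_iff.2 fun s _ => hcon s)
      obtain ⟨s₀, hs₀⟩ := hi
      obtain ⟨c, hc⟩ := exists_sub_smul_mem_ker_ptHom G (q i) hs₀ a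
      exact ⟨c • s₀, hc⟩
    choose v hv using hex
    obtain ⟨w, hw⟩ := hsurj v
    refine ⟨(w : G.N₀ × G.N₁), w.2, ?_⟩
    rw [mem_vanq_iff G q hqinj]
    intro i
    have h1 : a - (w : G.N₀ × G.N₁).1 =
        (a - (v i : G.N₀ × G.N₁).1) - ((w - v i : sec x (n' + 1) G) : G.N₀ × G.N₁).1 := by
      simp
    rw [h1]
    exact Submodule.sub_mem _ (hv i) (hw i)
  · -- mem
    rw [mem_secq]
    exact ⟨s.2, (mem_vanq_iff G q hqinj _).2 hsZ⟩
  · -- span
    intro t ht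
    rw [mem_secq] at ht
    have htW : (⟨t, ht.1⟩ : sec x (n' + 1) G) ∈ ⨅ i, secZ x (n' + 1) G (q i) :=
      (Submodule.mem_iInf _).2 fun i => (mem_vanq_iff G q hqinj _).1 ht.2 i
    obtain ⟨c, hc⟩ := hspan ⟨⟨t, ht.1⟩, htW⟩
    refine ⟨c, ?_⟩
    have h1 := congrArg (fun z : ↥(⨅ i, secZ x (n' + 1) G (q i)) =>
      ((z : sec x (n' + 1) G) : G.N₀ × G.N₁)) hc
    exact h1.symm
  · -- gen
    haveI := G.invertible₁
    intro c
    refine exists_sub_smul_mem_span_smul_top (yElt k K y) (fun P hP hy hmem => ?_) c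
    have h1 : s ∈ (⨅ i, secZ x (n' + 1) G (q i)) ⊓ secH x (n' + 1) G P :=
      ⟨hsW, hmem⟩
    have h2 := hmeet ⟨P, hP, hy⟩
    rw [h2] at h1
    exact hs0' ((Submodule.mem_bot K).1 h1)

end Field

end Fermat.Agent.S25.H430
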