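/-
S25, block GDC (helper430): `H687.BCId`, `H687.BCComp`, `H687.DegIso` — identity and composition of
base changes of gluing data, invariance of the degree under isomorphism.
-/
import Fermat.Agent.S25.H687.DDDefs

set_option autoImplicit false
universe u
open scoped TensorProduct
open Fermat.Agent.S25

namespace Fermat.Agent.S25.H430

section SBCGeneral

variable {R R' R'' : Type u} [CommRing R] [CommRing R'] [CommRing R'']
  {N N' N'' : Type u} [AddCommGroup N] [Module R N] [AddCommGroup N'] [Module R' N']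
  [AddCommGroup N''] [Module R'' N'']

/-- A bijective semilinear map over a surjective ring map is a semilinear base change. -/
theorem sbc_of_bijective (ρ : R →+* R') (hρ : Function.Surjective ρ) (b : N →ₛₗ[ρ] N')
    (hb : Function.Bijective b) : IsSemilinearBaseChange ρ b := by
  let _ : Algebra R R' := ρ.toAlgebra
  let _ : Module R N' := Module.compHom N' ρ
  have _ : IsScalarTower R R' N' := ⟨fun r r' n => by
    change (ρ r * r') • n = ρ r • (r' • n); rw [mul_smul]⟩
  show IsBaseChange R' (show N →ₗ[R] N' from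
    { toFun := fun n => b n
      map_add' := fun m n => b.map_add m n
      map_smul' := fun r n => LinearMap.map_smulₛₗ b r n })
  set bl : N →ₗ[R] N' :=
    { toFun := fun n => b n
      map_add' := fun m n => b.map_add m n
      map_smul' := fun r n => LinearMap.map_smulₛₗ b r n } with hbl
  have hform : ∀ z : R' ⊗[R] N, ∃ n : N, z = (1 : R') ⊗ₜ[R] n := by
    intro z
    induction z using TensorProduct.induction_on with
    | zero => exact ⟨0, by simp⟩
    | tmul s m =>
      obtain ⟨r, rfl⟩ := hρ s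
      refine ⟨r • m, ?_⟩
      rw [TensorProduct.tmul_smul, TensorProduct.smul_tmul', Algebra.smul_def, mul_one]
      rfl
    | add x y hx hy =>
      obtain ⟨n, rfl⟩ := hx
      obtain ⟨n', rfl⟩ := hy
      exact ⟨n + n', by rw [TensorProduct.tmul_add]⟩
  have hlift : ∀ n : N, (TensorProduct.lift (((Algebra.linearMap R' <|
      Module.End R' (N →ₗ[R] N')).flip bl).restrictScalars R)) ((1 : R') ⊗ₜ[R] n) = b n := by
    intro n
    simp [hbl]
  refine ⟨fun z z' hzz' => ?_, fun n' => ?_⟩
  · obtain ⟨n, rfl⟩ := hform z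
    obtain ⟨n', rfl⟩ := hform z'
    rw [hlift, hlift] at hzz'
    rw [hb.1 hzz']
  · obtain ⟨n, rfl⟩ := hb.2 n'
    exact ⟨(1 : R') ⊗ₜ[R] n, hlift n⟩

/-- Semilinear base changes compose. -/
theorem sbc_comp (ρ : R →+* R') (ρ' : R' →+* R'') (ρ'' : R →+* R'') (h : ρ'' = ρ'.comp ρ)
    (b : N →ₛₗ[ρ] N') (b' : N' →ₛₗ[ρ'] N'') (b'' : N →ₛₗ[ρ''] N'')
    (hb'' : ∀ n, b'' n = b' (b n))
    (hb : IsSemilinearBaseChange ρ b) (hb' : IsSemilinearBaseChange ρ' b') :
    IsSemilinearBaseChange ρ'' b'' := by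
  subst h
  let a1 : Algebra R R' := ρ.toAlgebra
  let a2 : Algebra R' R'' := ρ'.toAlgebra
  let a3 : Algebra R R'' := (ρ'.comp ρ).toAlgebra
  have t : IsScalarTower R R' R'' := IsScalarTower.of_algebraMap_eq (fun _ => rfl)
  let m1 : Module R N' := Module.compHom N' ρ
  let m2 : Module R' N'' := Module.compHom N'' ρ'
  let m3 : Module R N'' := Module.compHom N'' (ρ'.comp ρ)
  have t1 : IsScalarTower R R' N' := ⟨fun r r' n => by
    change (ρ r * r') • n = ρ r • (r' • n); rw [mul_smul]⟩
  have t2 : IsScalarTower R' R'' N'' := ⟨fun r r' n => by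
    change (ρ' r * r') • n = ρ' r • (r' • n); rw [mul_smul]⟩
  have t3 : IsScalarTower R R'' N'' := ⟨fun r r' n => by
    change (ρ' (ρ r) * r') • n = ρ' (ρ r) • (r' • n); rw [mul_smul]⟩
  have t4 : IsScalarTower R R' N'' := ⟨fun r r' n => by
    change ρ' (ρ r * r') • n = ρ' (ρ r) • (ρ' r' • n); rw [map_mul, mul_smul]⟩
  have h1 : IsBaseChange R' (show N →ₗ[R] N' from
    { toFun := fun n => b n
      map_add' := fun m n => b.map_add m n
      map_smul' := fun r n => LinearMap.map_smulₛₗ b r n }) := hb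
  have h2 : IsBaseChange R'' (show N' →ₗ[R'] N'' from
    { toFun := fun n => b' n
      map_add' := fun m n => b'.map_add m n
      map_smul' := fun r n => LinearMap.map_smulₛₗ b' r n }) := hb'
  have h3 := IsBaseChange.comp h1 h2
  show IsBaseChange R'' (show N →ₗ[R] N'' from
    { toFun := fun n => b'' n
      map_add' := fun m n => b''.map_add m n
      map_smul' := fun r n => LinearMap.map_smulₛₗ b'' r n })
  convert h3 using 1
  ext n
  exact hb'' n

end SBCGeneral

section Curve

variable {k : Type u} [Field k] {B₀ B₁ B₀₁ : Type u} [CommRing B₀] [CommRing B₁] [CommRing B₀₁]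
  [Algebra k B₀] [Algebra k B₁] [Algebra k B₀₁] [Algebra B₀ B₀₁] [Algebra B₁ B₀₁]
  [IsScalarTower k B₀ B₀₁] [IsScalarTower k B₁ B₀₁]

theorem tensorMapLeft_id (A B : Type u) [CommRing A] [Algebra k A] [CommRing B] [Algebra k B] :
    tensorMapLeft k (AlgHom.id k A) B = RingHom.id (A ⊗[k] B) := by
  apply RingHom.ext
  intro z
  induction z using TensorProduct.induction_on with
  | zero => simp
  | tmul a β => rfl
  | add x y hx hy => rw [map_add, map_add, hx, hy]

theorem tensorMapLeft_comp {A A' A'' : Type u} [CommRing A] [Algebra k A] [CommRing A']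
    [Algebra k A'] [CommRing A''] [Algebra k A''] (φ : A →ₐ[k] A') (ψ : A' →ₐ[k] A'')
    (B : Type u) [CommRing B] [Algebra k B] :
    tensorMapLeft k (ψ.comp φ) B = (tensorMapLeft k ψ B).comp (tensorMapLeft k φ B) := by
  apply RingHom.ext
  intro z
  induction z using TensorProduct.induction_on with
  | zero => simp
  | tmul a β => rfl
  | add x y hx hy => rw [map_add, map_add, hx, hy]

/-- The identity as a semilinear map over a ring map equal to the identity. -/
def idSemilinear {R : Type u} [CommRing R] (ρ : R →+* R) (hρ : ρ = RingHom.id R)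
    (N : Type u) [AddCommGroup N] [Module R N] : N →ₛₗ[ρ] N where
  toFun := fun n => n
  map_add' := fun _ _ => rfl
  map_smul' := fun r n => by subst hρ; rfl

/-- The composite of two semilinear maps, over a ring map equal to the composite. -/
def compSemilinear {R R' R'' : Type u} [CommRing R] [CommRing R'] [CommRing R'']
    {ρ : R →+* R'} {ρ' : R' →+* R''} (ρ'' : R →+* R'') (h : ρ'' = ρ'.comp ρ)
    {N N' N'' : Type u} [AddCommGroup N] [Module R N] [AddCommGroup N'] [Module R' N']
    [AddCommGroup N''] [Module R'' N''] (b : N →ₛₗ[ρ] N') (b' : N' →ₛₗ[ρ'] N'') :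
    N →ₛₗ[ρ''] N'' where
  toFun := fun n => b' (b n)
  map_add' := fun x y => by rw [map_add, map_add]
  map_smul' := fun r n => by
    subst h
    rw [LinearMap.map_smulₛₗ, LinearMap.map_smulₛₗ]
    rfl

/-- **BCId.** -/
theorem bcId : H687.BCId k B₀ B₁ B₀₁ := by
  intro A _ _ G
  refine ⟨{ b₀ := idSemilinear _ (tensorMapLeft_id A B₀) G.N₀
            b₁ := idSemilinear _ (tensorMapLeft_id A B₁) G.N₁
            b₀₁ := idSemilinear _ (tensorMapLeft_id A B₀₁) G.N₀₁
            comm₀ := fun _ => rfl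
            comm₁ := fun _ => rfl
            isBaseChange₀ := ?_
            isBaseChange₁ := ?_
            isBaseChange₀₁ := ?_ }⟩
  · refine sbc_of_bijective _ ?_ _ Function.bijective_id
    rw [tensorMapLeft_id]; exact Function.surjective_id
  · refine sbc_of_bijective _ ?_ _ Function.bijective_id
    rw [tensorMapLeft_id]; exact Function.surjective_id
  · refine sbc_of_bijective _ ?_ _ Function.bijective_id
    rw [tensorMapLeft_id]; exact Function.surjective_id

/-- **BCComp.** -/
theorem bcComp : H687.BCComp k B₀ B₁ B₀₁ := by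
  intro A A' A'' _ _ _ _ _ _ φ ψ G G' G'' hbc hbc'
  obtain ⟨bm⟩ := hbc
  obtain ⟨bm'⟩ := hbc'
  refine ⟨{ b₀ := compSemilinear _ (tensorMapLeft_comp φ ψ B₀) bm.b₀ bm'.b₀
            b₁ := compSemilinear _ (tensorMapLeft_comp φ ψ B₁) bm.b₁ bm'.b₁
            b₀₁ := compSemilinear _ (tensorMapLeft_comp φ ψ B₀₁) bm.b₀₁ bm'.b₀₁
            comm₀ := fun s => ?_
            comm₁ := fun s => ?_
            isBaseChange₀ := ?_
            isBaseChange₁ := ?_
            isBaseChange₀₁ := ?_ }⟩
  · show bm'.b₀₁ (bm.b₀₁ (G.r₀ s)) = G''.r₀ (bm'.b₀ (bm.b₀ s))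
    rw [bm.comm₀, bm'.comm₀]
  · show bm'.b₀₁ (bm.b₀₁ (G.r₁ s)) = G''.r₁ (bm'.b₁ (bm.b₁ s))
    rw [bm.comm₁, bm'.comm₁]
  · exact sbc_comp _ _ _ (tensorMapLeft_comp φ ψ B₀) bm.b₀ bm'.b₀ _ (fun _ => rfl)
      bm.isBaseChange₀ bm'.isBaseChange₀
  · exact sbc_comp _ _ _ (tensorMapLeft_comp φ ψ B₁) bm.b₁ bm'.b₁ _ (fun _ => rfl)
      bm.isBaseChange₁ bm'.isBaseChange₁
  · exact sbc_comp _ _ _ (tensorMapLeft_comp φ ψ B₀₁) bm.b₀₁ bm'.b₀₁ _ (fun _ => rfl)
      bm.isBaseChange₀₁ bm'.isBaseChange₀₁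

end Curve

section DegIso

variable {K R₀ R₁ R₀₁ : Type u} [Field K] [CommRing R₀] [CommRing R₁]
    [CommRing R₀₁] [Algebra K R₀] [Algebra K R₁] [Algebra K R₀₁] [Algebra R₀ R₀₁]
    [Algebra R₁ R₀₁] [IsScalarTower K R₀ R₀₁] [IsScalarTower K R₁ R₀₁]

/-- Isomorphic gluing data have isomorphic `H⁰` and `H¹`, hence equal Euler characteristic. -/
theorem euler_eq_of_isIso (G G' : GlueDatum K R₀ R₁ R₀₁) (h : G.IsIso G') :
    G.euler = G'.euler := by
  obtain ⟨iso⟩ := h
  -- the `K`-linear equivalences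
  let E : (G.N₀ × G.N₁) ≃ₗ[K] (G'.N₀ × G'.N₁) :=
    LinearEquiv.prodCongr (iso.e₀.restrictScalars K) (iso.e₁.restrictScalars K)
  let E₀₁ : G.N₀₁ ≃ₗ[K] G'.N₀₁ := iso.e₀₁.restrictScalars K
  have hcomm : ∀ p, G'.cech (E p) = E₀₁ (G.cech p) := by
    rintro ⟨a, b⟩
    simp only [GlueDatum.cech, LinearMap.coprod_apply, LinearMap.neg_apply,
      LinearMap.coe_restrictScalars, E, E₀₁, LinearEquiv.prodCongr_apply,
      LinearEquiv.restrictScalars_apply, map_add, map_neg]
    rw [iso.comm₀, iso.comm₁]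
  have hker : (LinearMap.ker G.cech).map E.toLinearMap = LinearMap.ker G'.cech := by
    ext p
    constructor
    · rintro ⟨q, hq, rfl⟩
      rw [LinearMap.mem_ker]
      show G'.cech (E q) = 0
      rw [hcomm, LinearMap.mem_ker.mp hq, map_zero]
    · intro hp
      refine ⟨E.symm p, ?_, by simp⟩
      rw [SetLike.mem_coe, LinearMap.mem_ker]
      apply E₀₁.injective
      rw [← hcomm, LinearEquiv.apply_symm_apply, map_zero]
      exact hp
  have hrange : (LinearMap.range G.cech).map E₀₁.toLinearMap = LinearMap.range G'.cech := by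
    ext z
    constructor
    · rintro ⟨_, ⟨q, rfl⟩, rfl⟩
      exact ⟨E q, by rw [hcomm]; rfl⟩
    · rintro ⟨p, rfl⟩
      refine ⟨G.cech (E.symm p), ⟨E.symm p, rfl⟩, ?_⟩
      show E₀₁ (G.cech (E.symm p)) = G'.cech p
      rw [← hcomm, LinearEquiv.apply_symm_apply]
  have h0 : Module.finrank K G.H0 = Module.finrank K G'.H0 := by
    have := LinearEquiv.finrank_map_eq E (LinearMap.ker G.cech)
    rw [← this]
    show Module.finrank K ((LinearMap.ker G.cech).map E.toLinearMap) = _
    rw [hker]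
  have h1 : Module.finrank K G.H1 = Module.finrank K G'.H1 :=
    LinearEquiv.finrank_eq (Submodule.Quotient.equiv _ _ E₀₁ hrange)
  unfold GlueDatum.euler
  rw [h0, h1]

/-- **DegIso**, general form. -/
theorem degree_eq_of_isIso (G G' : GlueDatum K R₀ R₁ R₀₁) (h : G.IsIso G') :
    G.degree = G'.degree := by
  unfold GlueDatum.degree
  rw [euler_eq_of_isIso G G' h]

end DegIso

/-- **DegIso.** -/
theorem degIso {k : Type u} [Field k] {B₀ B₁ B₀₁ : Type u} [CommRing B₀] [CommRing B₁]
    [CommRing B₀₁] [Algebra k B₀] [Algebra k B₁] [Algebra k B₀₁] [Algebra B₀ B₀₁]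
    [Algebra B₁ B₀₁] [IsScalarTower k B₀ B₀₁] [IsScalarTower k B₁ B₀₁] :
    H687.DegIso k B₀ B₁ B₀₁ := by
  intro K _ _ G G' h
  exact degree_eq_of_isIso G G' h

end Fermat.Agent.S25.H430
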